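import Fermat.Agent.S10.PID13Data

/-!
# The ring of integers of the 13-th cyclotomic field is a PID (assembly)
-/

namespace Fermat.Agent.S10

open NumberField Polynomial Ideal RingOfIntegers NumberField.Ideal IsCyclotomicExtension

set_option maxRecDepth 100000 in
theorem prime_table_thirteen : ∀ p < 308, Nat.Prime p →
    p = 13 ∨ p = 3 ∨ p = 53 ∨ p = 79 ∨ p = 131 ∨ p = 157 ∨
    ∃ k < 13, 307 < p ^ k ∧ ∀ j < k, 0 < j → ((p : ZMod 13)) ^ j ≠ 1 := by
  decide

theorem pid_thirteen (K : Type*) [Field K] [NumberField K] [IsCyclotomicExtension {13} ℚ K] :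
    IsPrincipalIdealRing (𝓞 K) := by
  have := fact_prime_thirteen
  have : IsGalois ℚ K := IsCyclotomicExtension.isGalois {13} ℚ K
  have hζ := zeta_spec 13 ℚ K
  apply RingOfIntegers.isPrincipalIdealRing_of_isPrincipal_of_lt_or_isPrincipal_of_mem_primesOver_of_mem_Icc
  intro p hp hprime
  have hM := minkowski_floor_le K
  have hp307 : p < 308 := by
    have := (Finset.mem_Icc.mp hp).2
    omega
  by_cases h13 : p = 13
  · subst h13
    refine ⟨span {hζ.toInteger - 1}, ⟨IsCyclotomicExtension.Rat.isPrime_span_zeta_sub_one' 13 hζ,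
      ?_⟩, Or.inr ⟨_, rfl⟩⟩
    have hK' : IsCyclotomicExtension {13 ^ (0 + 1)} ℚ K := by
      simpa using ‹IsCyclotomicExtension {13} ℚ K›
    have hζ' : IsPrimitiveRoot (zeta 13 ℚ K) (13 ^ (0 + 1)) := by simp [hζ]
    exact IsCyclotomicExtension.Rat.liesOver_span_zeta_sub_one 13 0 hζ'
  rcases prime_table_thirteen p hp307 hprime with
    h | rfl | rfl | rfl | rfl | rfl | ⟨k, -, hlt, hord⟩
  · exact absurd h h13
  · obtain ⟨P, hP, hprinc⟩ := exists_isPrincipal_3 hζ
    exact ⟨P, hP, Or.inr hprinc⟩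
  · obtain ⟨P, hP, hprinc⟩ := exists_isPrincipal_53 hζ
    exact ⟨P, hP, Or.inr hprinc⟩
  · obtain ⟨P, hP, hprinc⟩ := exists_isPrincipal_79 hζ
    exact ⟨P, hP, Or.inr hprinc⟩
  · obtain ⟨P, hP, hprinc⟩ := exists_isPrincipal_131 hζ
    exact ⟨P, hP, Or.inr hprinc⟩
  · obtain ⟨P, hP, hprinc⟩ := exists_isPrincipal_157 hζ
    exact ⟨P, hP, Or.inr hprinc⟩
  · have : Fact p.Prime := ⟨hprime⟩
    have hpI : (span {(p : ℤ)}).IsPrime :=
      (Ideal.span_singleton_prime (by exact_mod_cast hprime.ne_zero)).mpr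
        (Nat.prime_iff_prime_int.mp hprime)
    obtain ⟨⟨P, hP⟩⟩ := (span {(p : ℤ)}).nonempty_primesOver (S := 𝓞 K)
    refine ⟨P, hP, Or.inl ?_⟩
    have hP1 : P.IsPrime := hP.1
    have hP2 : P.LiesOver (span {(p : ℤ)}) := hP.2
    have hndvd : ¬ p ∣ 13 := by
      intro h
      rcases (Nat.dvd_prime (by norm_num : Nat.Prime 13)).mp h with h1 | h1
      · exact hprime.one_lt.ne' h1
      · exact h13 h1
    have hdeg := IsCyclotomicExtension.Rat.inertiaDeg_eq_of_not_dvd (m := 13) p K P hndvd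
    have hpos : 0 < orderOf (p : ZMod 13) := by
      rw [← hdeg]
      have : (span {(p : ℤ)}).IsMaximal := hpI.isMaximal (by simpa using hprime.ne_zero)
      exact Ideal.inertiaDeg_pos (R := ℤ) (q := P)
    have hk : k ≤ orderOf (p : ZMod 13) := by
      by_contra hcon
      exact hord _ (not_le.mp hcon) hpos (pow_orderOf_eq_one _)
    rw [hdeg]
    calc _ ≤ 307 := hM
      _ < p ^ k := hlt
      _ ≤ p ^ orderOf (p : ZMod 13) := Nat.pow_le_pow_right hprime.pos hk

end Fermat.Agent.S10
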