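import Mathlib.NumberTheory.NumberField.Cyclotomic.PID
import Mathlib.NumberTheory.NumberField.Cyclotomic.Ideal
import Mathlib.Analysis.Real.Pi.Bounds
import Mathlib.Tactic.NormNum.Prime

/-!
# Minkowski bound for the 13-th cyclotomic field
-/

namespace Fermat.Agent.S10

open NumberField Polynomial InfinitePlace Nat Real IsCyclotomicExtension IsCyclotomicExtension.Rat

variable (K : Type*) [Field K] [NumberField K] [IsCyclotomicExtension {13} ℚ K]

theorem fact_prime_thirteen : Fact (Nat.Prime 13) := ⟨by norm_num⟩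

theorem minkowski_floor_le :
    ⌊(4 / π) ^ nrComplexPlaces K *
      ((Module.finrank ℚ K)! / (Module.finrank ℚ K) ^ (Module.finrank ℚ K) *
        √|(discr K : ℝ)|)⌋₊ ≤ 307 := by
  have := fact_prime_thirteen
  apply Nat.floor_le_of_le
  rw [discr_prime 13 K, IsCyclotomicExtension.finrank (n := 13) K
    (cyclotomic.irreducible_rat (by norm_num)), nrComplexPlaces_eq_totient_div_two 13,
    totient_prime (by norm_num : Nat.Prime 13)]
  have h12 : (12 : ℕ)! = 479001600 := by decide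
  have hs : √|(((-1 : ℤ) ^ ((13 - 1) / 2) * (13 : ℕ) ^ (13 - 2) : ℤ) : ℝ)| ≤ 1338720 := by
    rw [Real.sqrt_le_left (by norm_num)]
    norm_num
  have hpi : (4 / π) ^ ((13 - 1) / 2) ≤ (4 / 3.1415 : ℝ) ^ 6 := by
    have : (0:ℝ) < π := Real.pi_pos
    have h2 : (4 / π : ℝ) ≤ 4 / 3.1415 := by
      apply div_le_div_of_nonneg_left (by norm_num) (by norm_num) (le_of_lt Real.pi_gt_d4)
    show (4 / π) ^ 6 ≤ _
    exact pow_le_pow_left₀ (by positivity) h2 6
  calc (4 / π) ^ ((13 - 1) / 2) *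
        (((13 - 1 : ℕ)! : ℝ) / ((13 - 1 : ℕ) : ℝ) ^ (13 - 1) *
          √|(((-1 : ℤ) ^ ((13 - 1) / 2) * (13 : ℕ) ^ (13 - 2) : ℤ) : ℝ)|)
      ≤ (4 / 3.1415 : ℝ) ^ 6 * (((13 - 1 : ℕ)! : ℝ) / ((13 - 1 : ℕ) : ℝ) ^ (13 - 1) * 1338720) := by
        gcongr
    _ ≤ ((307 : ℕ) : ℝ) := by
        simp only [show (13 - 1 : ℕ) = 12 from rfl, h12]
        norm_num

end Fermat.Agent.S10
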