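import Mathlib.NumberTheory.NumberField.Cyclotomic.Ideal
import Mathlib.NumberTheory.NumberField.Ideal.KummerDedekind
import Mathlib.Tactic.NormNum.Prime

/-!
# Principal primes in cyclotomic fields from explicit certificates
-/

namespace Fermat.Agent.S10

open NumberField Polynomial Ideal RingOfIntegers NumberField.Ideal IsCyclotomicExtension
  UniqueFactorizationMonoid

variable {K : Type*} [Field K] [NumberField K]

section general

variable {n : ℕ} [NeZero n] [IsCyclotomicExtension {n} ℚ K] {ζ : K} (hζ : IsPrimitiveRoot ζ n)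

include hζ in
theorem not_dvd_exponent_toInteger (p : ℕ) [hp : Fact p.Prime] :
    ¬ p ∣ exponent hζ.toInteger := by
  rw [exponent_eq_one_iff.mpr <| IsCyclotomicExtension.Rat.adjoin_singleton_eq_top hζ]
  exact hp.out.not_dvd_one

theorem minpoly_toInteger : minpoly ℤ hζ.toInteger = cyclotomic n ℤ := by
  rw [cyclotomic_eq_minpoly hζ (NeZero.pos _), ← RingOfIntegers.minpoly_coe]
  rfl

/-- Kummer-Dedekind: if `Q` reduces mod `p` to a monic irreducible factor of the cyclotomic
polynomial, then `(p, Q(ζ))` is a prime over `p`. -/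
theorem span_pair_mem_primesOver (p : ℕ) [hp : Fact p.Prime] (Q : ℤ[X])
    (hirr : Irreducible (Q.map (Int.castRingHom (ZMod p))))
    (hmonic : (Q.map (Int.castRingHom (ZMod p))).Monic)
    (hdvd : Q.map (Int.castRingHom (ZMod p)) ∣ cyclotomic n (ZMod p)) :
    span {(p : 𝓞 K), aeval hζ.toInteger Q} ∈ primesOver (span {(p : ℤ)}) (𝓞 K) := by
  classical
  have hexp := not_dvd_exponent_toInteger hζ p
  have hQ : Q.map (Int.castRingHom (ZMod p)) ∈ monicFactorsMod hζ.toInteger p := by
    rw [Multiset.mem_toFinset, Polynomial.mem_normalizedFactors_iff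
      (map_monic_ne_zero (minpoly.monic hζ.toInteger.isIntegral))]
    refine ⟨hirr, hmonic, ?_⟩
    rwa [minpoly_toInteger hζ, map_cyclotomic_int]
  rw [← primesOverSpanEquivMonicFactorsMod_symm_apply_eq_span hexp hQ]
  exact ((primesOverSpanEquivMonicFactorsMod hexp).symm ⟨_, hQ⟩).2

end general

end Fermat.Agent.S10
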