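import Fermat.Agent.S10.PID13Bound
import Fermat.Agent.S10.PID13Cert
import Mathlib.Algebra.Polynomial.SpecificDegree
import Mathlib.Tactic.LinearCombination
import Mathlib.Tactic.IntervalCases
import Mathlib.Tactic.FinCases

/-!
# The ring of integers of the 13-th cyclotomic field is a PID
-/

namespace Fermat.Agent.S10

open NumberField Polynomial Ideal RingOfIntegers NumberField.Ideal IsCyclotomicExtension
  UniqueFactorizationMonoid

variable {K : Type*} [Field K] [NumberField K] [IsCyclotomicExtension {13} ℚ K]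

section certs

variable {ζ : K} (hζ : IsPrimitiveRoot ζ 13)

omit [NumberField K] [IsCyclotomicExtension {13} ℚ K] in
include hζ in
theorem geom_sum_toInteger :
    1 + hζ.toInteger + hζ.toInteger ^ 2 + hζ.toInteger ^ 3 + hζ.toInteger ^ 4 +
      hζ.toInteger ^ 5 + hζ.toInteger ^ 6 + hζ.toInteger ^ 7 + hζ.toInteger ^ 8 +
      hζ.toInteger ^ 9 + hζ.toInteger ^ 10 + hζ.toInteger ^ 11 + hζ.toInteger ^ 12 = 0 := by
  have h := hζ.toInteger_isPrimitiveRoot.geom_sum_eq_zero (by norm_num : 1 < 13)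
  simpa [Finset.sum_range_succ] using h

/-- A degree-one prime over `p` is principal as soon as we have an explicit generator
together with explicit cofactors. -/
theorem exists_isPrincipal_of_linear_cert (p : ℕ) [hp : Fact p.Prime] (r : ℤ)
    (hr : ∑ i ∈ Finset.range 13, (r : ZMod p) ^ i = 0)
    (α β γ v : 𝓞 K) (u : ℤ)
    (h1 : α * β = (p : 𝓞 K)) (h2 : α * γ = hζ.toInteger - (r : 𝓞 K))
    (h3 : α = (p : 𝓞 K) * (u : 𝓞 K) + (hζ.toInteger - (r : 𝓞 K)) * v) :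
    ∃ P ∈ primesOver (span {(p : ℤ)}) (𝓞 K), Submodule.IsPrincipal P := by
  have := fact_prime_thirteen
  have hmem := span_pair_mem_primesOver hζ p (X - C r)
    (by rw [Polynomial.map_sub, map_X, map_C]; exact irreducible_X_sub_C _)
    (by rw [Polynomial.map_sub, map_X, map_C]; exact monic_X_sub_C _)
    (by
      rw [Polynomial.map_sub, map_X, map_C, dvd_iff_isRoot, cyclotomic_prime]
      simpa [eval_finsetSum] using hr)
  have haev : aeval hζ.toInteger (X - C r : ℤ[X]) = hζ.toInteger - (r : 𝓞 K) := by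
    simp
  rw [haev] at hmem
  refine ⟨_, hmem, ⟨α, ?_⟩⟩
  apply le_antisymm
  · rw [Ideal.span_le]
    rintro x (rfl | rfl)
    · exact Ideal.mem_span_singleton.mpr ⟨β, h1.symm⟩
    · exact Ideal.mem_span_singleton.mpr ⟨γ, h2.symm⟩
  · rw [Ideal.submodule_span_eq, Ideal.span_singleton_le_iff_mem, h3]
    exact Ideal.add_mem _
      (Ideal.mul_mem_right _ _ (Ideal.subset_span (by simp)))
      (Ideal.mul_mem_right _ _ (Ideal.subset_span (by simp)))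

omit [NumberField K] [IsCyclotomicExtension {13} ℚ K] in
theorem root_check_53 : ∑ i ∈ Finset.range 13, (((16) : ℤ) : ZMod 53) ^ i = 0 := by decide

include hζ in
theorem exists_isPrincipal_53 :
    ∃ P ∈ primesOver (span {((53 : ℕ) : ℤ)}) (𝓞 K), Submodule.IsPrincipal P := by
  have : Fact (Nat.Prime 53) := ⟨by norm_num⟩
  have hΦ := geom_sum_toInteger hζ
  have hr : ∑ i ∈ Finset.range 13, (((16) : ℤ) : ZMod 53) ^ i = 0 := root_check_53
  set θ := hζ.toInteger with hθ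
  refine exists_isPrincipal_of_linear_cert hζ 53 (16) hr
    (1 - θ + θ ^ 3)
    (25 + 10 * θ + 19 * θ ^ 2 + 3 * θ ^ 3 + 2 * θ ^ 4 - 8 * θ ^ 5 - 2 * θ ^ 6 + 5 * θ ^ 7 + 22 * θ ^ 8 + 33 * θ ^ 9 + 37 * θ ^ 10 + 24 * θ ^ 11)
    (-8 - 3 * θ - 6 * θ ^ 2 - θ ^ 3 - θ ^ 4 + 2 * θ ^ 5 - 2 * θ ^ 7 - 7 * θ ^ 8 - 10 * θ ^ 9 - 11 * θ ^ 10 - 7 * θ ^ 11)
    (255 + 16 * θ + θ ^ 2) (77) ?_ ?_ ?_
  · push_cast
    linear_combination (-28 + 13 * θ + 24 * θ ^ 2) * hΦ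
  · push_cast
    linear_combination (8 - 4 * θ - 7 * θ ^ 2) * hΦ
  · push_cast
    ring

omit [NumberField K] [IsCyclotomicExtension {13} ℚ K] in
theorem root_check_79 : ∑ i ∈ Finset.range 13, (((-17) : ℤ) : ZMod 79) ^ i = 0 := by decide

include hζ in
theorem exists_isPrincipal_79 :
    ∃ P ∈ primesOver (span {((79 : ℕ) : ℤ)}) (𝓞 K), Submodule.IsPrincipal P := by
  have : Fact (Nat.Prime 79) := ⟨by norm_num⟩
  have hΦ := geom_sum_toInteger hζ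
  have hr : ∑ i ∈ Finset.range 13, (((-17) : ℤ) : ZMod 79) ^ i = 0 := root_check_79
  set θ := hζ.toInteger with hθ
  refine exists_isPrincipal_of_linear_cert hζ 79 (-17) hr
    (1 - θ - θ ^ 4)
    (62 + 63 * θ + 49 * θ ^ 2 + 8 * θ ^ 3 + 29 * θ ^ 4 + 51 * θ ^ 5 + 59 * θ ^ 6 + 26 * θ ^ 7 + 14 * θ ^ 8 + 24 * θ ^ 9 + 42 * θ ^ 10 + 27 * θ ^ 11)
    (13 + 14 * θ + 11 * θ ^ 2 + 2 * θ ^ 3 + 6 * θ ^ 4 + 11 * θ ^ 5 + 13 * θ ^ 6 + 6 * θ ^ 7 + 3 * θ ^ 8 + 5 * θ ^ 9 + 9 * θ ^ 10 + 6 * θ ^ 11)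
    (4912 - 289 * θ + 17 * θ ^ 2 - θ ^ 3) (-1057) ?_ ?_ ?_
  · push_cast
    linear_combination (-17 + 18 * θ - 15 * θ ^ 2 - 27 * θ ^ 3) * hΦ
  · push_cast
    linear_combination (-4 + 4 * θ - 3 * θ ^ 2 - 6 * θ ^ 3) * hΦ
  · push_cast
    ring

omit [NumberField K] [IsCyclotomicExtension {13} ℚ K] in
theorem root_check_131 : ∑ i ∈ Finset.range 13, (((-51) : ℤ) : ZMod 131) ^ i = 0 := by decide

include hζ in
theorem exists_isPrincipal_131 :
    ∃ P ∈ primesOver (span {((131 : ℕ) : ℤ)}) (𝓞 K), Submodule.IsPrincipal P := by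
  have : Fact (Nat.Prime 131) := ⟨by norm_num⟩
  have hΦ := geom_sum_toInteger hζ
  have hr : ∑ i ∈ Finset.range 13, (((-51) : ℤ) : ZMod 131) ^ i = 0 := root_check_131
  set θ := hζ.toInteger with hθ
  refine exists_isPrincipal_of_linear_cert hζ 131 (-51) hr
    (1 - θ - θ ^ 3)
    (111 + 78 * θ + 17 * θ ^ 2 + 67 * θ ^ 3 + 84 * θ ^ 4 + 40 * θ ^ 5 + 46 * θ ^ 6 + 69 * θ ^ 7 + 48 * θ ^ 8 + 33 * θ ^ 9 + 41 * θ ^ 10 + 28 * θ ^ 11)
    (43 + 31 * θ + 7 * θ ^ 2 + 26 * θ ^ 3 + 33 * θ ^ 4 + 16 * θ ^ 5 + 18 * θ ^ 6 + 27 * θ ^ 7 + 19 * θ ^ 8 + 13 * θ ^ 9 + 16 * θ ^ 10 + 11 * θ ^ 11)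
    (-2602 + 51 * θ - θ ^ 2) (1013) ?_ ?_ ?_
  · push_cast
    linear_combination (-20 - 13 * θ - 28 * θ ^ 2) * hΦ
  · push_cast
    linear_combination (-8 - 5 * θ - 11 * θ ^ 2) * hΦ
  · push_cast
    ring

omit [NumberField K] [IsCyclotomicExtension {13} ℚ K] in
theorem root_check_157 : ∑ i ∈ Finset.range 13, (((75) : ℤ) : ZMod 157) ^ i = 0 := by decide

include hζ in
theorem exists_isPrincipal_157 :
    ∃ P ∈ primesOver (span {((157 : ℕ) : ℤ)}) (𝓞 K), Submodule.IsPrincipal P := by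
  have : Fact (Nat.Prime 157) := ⟨by norm_num⟩
  have hΦ := geom_sum_toInteger hζ
  have hr : ∑ i ∈ Finset.range 13, (((75) : ℤ) : ZMod 157) ^ i = 0 := root_check_157
  set θ := hζ.toInteger with hθ
  refine exists_isPrincipal_of_linear_cert hζ 157 (75) hr
    (1 - θ + θ ^ 2 + θ ^ 4)
    (89 + 86 * θ + 42 * θ ^ 2 + 77 * θ ^ 3 + 67 * θ ^ 4 + 25 * θ ^ 5 + 37 * θ ^ 6 + 56 * θ ^ 7 + 73 * θ ^ 8 + 113 * θ ^ 9 + 124 * θ ^ 10 + 76 * θ ^ 11)
    (-43 - 41 * θ - 20 * θ ^ 2 - 37 * θ ^ 3 - 32 * θ ^ 4 - 12 * θ ^ 5 - 18 * θ ^ 6 - 27 * θ ^ 7 - 35 * θ ^ 8 - 54 * θ ^ 9 - 59 * θ ^ 10 - 36 * θ ^ 11)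
    (421949 + 5626 * θ + 75 * θ ^ 2 + θ ^ 3) (201568) ?_ ?_ ?_
  · push_cast
    linear_combination (-68 + 65 * θ + 48 * θ ^ 2 + 76 * θ ^ 3) * hΦ
  · push_cast
    linear_combination (32 - 31 * θ - 23 * θ ^ 2 - 36 * θ ^ 3) * hΦ
  · push_cast
    ring

omit [NumberField K] [IsCyclotomicExtension {13} ℚ K] in
theorem no_root_three : ∀ x : ZMod 3, ¬ x ^ 3 - x - 1 = 0 := by decide

omit [NumberField K] [IsCyclotomicExtension {13} ℚ K] in
theorem castRingHom_three : (Int.castRingHom (ZMod 3)) 3 = 0 := by decide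

omit [NumberField K] [IsCyclotomicExtension {13} ℚ K] in
theorem cyclotomic_thirteen_int_eq :
    cyclotomic 13 ℤ = (X ^ 3 - X - 1) *
      (20 + 15 * X + 11 * X ^ 2 + 8 * X ^ 3 + 6 * X ^ 4 + 4 * X ^ 5 + 3 * X ^ 6 + 2 * X ^ 7
        + X ^ 8 + X ^ 9) + 3 * (7 + 12 * X + 9 * X ^ 2) := by
  have := fact_prime_thirteen
  rw [cyclotomic_prime]
  simp only [Finset.sum_range_succ, Finset.sum_range_zero]
  ring

include hζ in
theorem exists_isPrincipal_3 :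
    ∃ P ∈ primesOver (span {((3 : ℕ) : ℤ)}) (𝓞 K), Submodule.IsPrincipal P := by
  have : Fact (Nat.Prime 3) := ⟨by norm_num⟩
  have := fact_prime_thirteen
  have hΦ := geom_sum_toInteger hζ
  have hmap : (X ^ 3 - X - 1 : ℤ[X]).map (Int.castRingHom (ZMod 3)) = X ^ 3 - X - 1 := by
    simp
  have hmem := span_pair_mem_primesOver hζ 3 (X ^ 3 - X - 1)
    (by
      rw [hmap]
      have hdeg : (X ^ 3 - X - 1 : (ZMod 3)[X]).natDegree = 3 := by
        compute_degree!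
      apply irreducible_of_degree_le_three_of_not_isRoot
      · rw [hdeg]; decide
      · intro x
        simp only [IsRoot, eval_sub, eval_pow, eval_X, eval_one]
        exact no_root_three x)
    (by
      rw [hmap]
      monicity!)
    (by
      rw [hmap, ← map_cyclotomic_int, cyclotomic_thirteen_int_eq]
      refine ⟨(20 + 15 * X + 11 * X ^ 2 + 8 * X ^ 3 + 6 * X ^ 4 + 4 * X ^ 5 + 3 * X ^ 6
        + 2 * X ^ 7 + X ^ 8 + X ^ 9 : ℤ[X]).map (Int.castRingHom (ZMod 3)), ?_⟩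
      have h3 : ((3 : ℤ[X]).map (Int.castRingHom (ZMod 3))) = 0 := by
        rw [show (3 : ℤ[X]) = C (3 : ℤ) from rfl, map_C]
        rw [castRingHom_three, map_zero]
      rw [Polynomial.map_add, Polynomial.map_mul, Polynomial.map_mul, h3, zero_mul, add_zero,
        hmap])
  have haev : aeval hζ.toInteger (X ^ 3 - X - 1 : ℤ[X]) =
      hζ.toInteger ^ 3 - hζ.toInteger - 1 := by
    simp
  rw [haev] at hmem
  set θ := hζ.toInteger with hθ
  refine ⟨_, hmem, ⟨1 + θ - θ ^ 3, ?_⟩⟩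
  apply le_antisymm
  · rw [Ideal.span_le]
    rintro x (rfl | rfl)
    · refine Ideal.mem_span_singleton.mpr ⟨-1 - θ ^ 2 - θ ^ 3 - 2 * θ ^ 5 - θ ^ 7 - 2 * θ ^ 8 + θ ^ 9 - 3 * θ ^ 10, ?_⟩
      push_cast
      linear_combination (-(-4 + 3 * θ)) * hΦ
    · refine Ideal.mem_span_singleton.mpr ⟨-1, ?_⟩
      ring
  · rw [Ideal.submodule_span_eq, Ideal.span_singleton_le_iff_mem]
    have : (1 + θ - θ ^ 3 : 𝓞 K) = (θ ^ 3 - θ - 1) * (-1) := by ring
    rw [this]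
    exact Ideal.mul_mem_right _ _ (Ideal.subset_span (by simp))

end certs

end Fermat.Agent.S10
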