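import Mathlib.NumberTheory.NumberField.ClassNumber
import Mathlib.NumberTheory.NumberField.Cyclotomic.Basic
import Mathlib.NumberTheory.NumberField.Cyclotomic.Embeddings
import Mathlib.NumberTheory.NumberField.Cyclotomic.Ideal
import Mathlib.Tactic

/-!
# The ring of integers of the `7`-th cyclotomic field is a principal ideal domain

The Minkowski bound is `< 5`, and the primes `2`, `3` have residue degree `3`, `6` in `ℚ(ζ₇)`,
so there is no prime ideal of norm `≤ 4`.
-/

set_option autoImplicit false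

namespace Fermat.Agent.S10

open NumberField Module NumberField.InfinitePlace Nat Real Ideal IsCyclotomicExtension.Rat

/-- The Minkowski bound of the `7`-th cyclotomic field is less than `5`. -/
lemma minkowski_seven_lt (K : Type*) [Field K] [NumberField K] [IsCyclotomicExtension {7} ℚ K] :
    (4 / π) ^ nrComplexPlaces K *
      ((finrank ℚ K)! / (finrank ℚ K) ^ (finrank ℚ K) * √|discr K|) < 5 := by
  have : Fact (Nat.Prime 7) := ⟨by norm_num⟩
  have hfin : finrank ℚ K = 6 := by
    rw [IsCyclotomicExtension.finrank (n := 7) K (Polynomial.cyclotomic.irreducible_rat (by simp)),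
      totient_prime (by norm_num)]
  have hr2 : nrComplexPlaces K = 3 := by
    rw [nrComplexPlaces_eq_totient_div_two 7, totient_prime (by norm_num)]
  have hdiscr : discr K = -16807 := by
    rw [discr_prime 7 K]
    norm_num
  rw [hfin, hr2, hdiscr]
  have h6 : ((6 ! : ℕ) : ℝ) = 720 := by norm_num [Nat.factorial]
  have hsqrt : √|((-16807 : ℤ) : ℝ)| < 130 := by
    rw [Real.sqrt_lt' (by norm_num)]
    norm_num
  have hpi : (4 / π) ^ 3 < (4 / 3 : ℝ) ^ 3 := by
    have hpi3 := pi_gt_three
    have : 4 / π < 4 / 3 := by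
      apply div_lt_div_of_pos_left (by norm_num) (by norm_num) hpi3
    gcongr
  have hpos : (0 : ℝ) ≤ √|((-16807 : ℤ) : ℝ)| := Real.sqrt_nonneg _
  generalize √|((-16807 : ℤ) : ℝ)| = s at hsqrt hpos
  rw [h6]
  have h66 : (((6 : ℕ) : ℝ)) ^ 6 = 46656 := by norm_num
  rw [h66]
  calc (4 / π) ^ 3 * ((720 : ℝ) / 46656 * s)
      ≤ (4 / π) ^ 3 * ((720 : ℝ) / 46656 * 130) := by gcongr
    _ < (4 / 3 : ℝ) ^ 3 * ((720 : ℝ) / 46656 * 130) := by gcongr
    _ < 5 := by norm_num

/-- The ring of integers of a `7`-th cyclotomic extension of `ℚ` is a principal ideal domain. -/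
theorem pid_seven (K : Type*) [Field K] [NumberField K] [IsCyclotomicExtension {7} ℚ K] :
    IsPrincipalIdealRing (𝓞 K) := by
  have hM := minkowski_seven_lt K
  have hfloor : ⌊(4 / π) ^ nrComplexPlaces K *
      ((finrank ℚ K)! / (finrank ℚ K) ^ (finrank ℚ K) * √|discr K|)⌋₊ ≤ 4 := by
    apply Nat.le_of_lt_succ
    rw [Nat.floor_lt (by positivity)]
    exact_mod_cast hM
  apply RingOfIntegers.isPrincipalIdealRing_of_isPrincipal_of_pow_le_of_mem_primesOver_of_mem_Icc
  intro p hp hpprime P hP hle
  exfalso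
  have hp4 : p ≤ 4 := (Finset.mem_Icc.1 hp).2.trans hfloor
  have hle4 : p ^ P.inertiaDeg ℤ ≤ 4 := hle.trans hfloor
  obtain ⟨hPprime, hPlies⟩ := hP
  have : Fact p.Prime := ⟨hpprime⟩
  have hp7 : ¬ p ∣ 7 := by
    intro hdvd
    have := (Nat.prime_dvd_prime_iff_eq hpprime (by norm_num)).1 hdvd
    omega
  have hf : P.inertiaDeg ℤ = orderOf (p : ZMod 7) := inertiaDeg_eq_of_not_dvd p K P hp7
  have hpos : 0 < orderOf (p : ZMod 7) := by
    rw [← hf]
    have : (span {(p : ℤ)}).IsMaximal :=
      (Int.ideal_span_isMaximal_of_prime p)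
    exact inertiaDeg_pos ..
  have hpow : (p : ZMod 7) ^ orderOf (p : ZMod 7) = 1 := pow_orderOf_eq_one _
  rw [hf] at hle4
  generalize orderOf (p : ZMod 7) = f at hle4 hpos hpow
  interval_cases p
  · exact absurd hpprime (by norm_num)
  · exact absurd hpprime (by norm_num)
  · -- `p = 2`
    have hf2 : f ≤ 2 := by
      by_contra h
      have h3 : 3 ≤ f := by omega
      have : 2 ^ 3 ≤ 2 ^ f := Nat.pow_le_pow_right (by norm_num) h3
      omega
    interval_cases f
    · revert hpow; decide
    · revert hpow; decide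
  · -- `p = 3`
    have hf1 : f ≤ 1 := by
      by_contra h
      have h2 : 2 ≤ f := by omega
      have : 3 ^ 2 ≤ 3 ^ f := Nat.pow_le_pow_right (by norm_num) h2
      omega
    interval_cases f
    revert hpow; decide
  · exact absurd hpprime (by norm_num)

end Fermat.Agent.S10
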